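import Mathlib
import Fermat.Prelude.Def_ModularCurve_ReductionModL
import Fermat.Agent.S28.Defs
import Fermat.Agent.S18.H516.GaussBC
import Fermat.Agent.S18.H516.GaussRing
import Fermat.Agent.S18.Mod.Defs

/-!
# S18 / MOD piece G-V (helper516): the Gauss valuation ring `VcSet M A E` of `Fc M E`

Concrete objects of `Fermat/Agent/S18/Mod/Defs.lean` (row-lead helper18).  Input: the S28 output
`CoreData M k`, `k` the residue field of `A ⊆ Q̄`.  Output: the `V`-fields of `Alg.GoodModel`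
for `V = VcSet M A E` (subring, `V_le`, `V_total`, `R_le_V`, `w_inv_not_mem_V`, `V_gen`, `gauss`),
for EVERY intermediate field `E` of `Q̄/ℚ`.
-/

set_option autoImplicit false
set_option linter.unusedSectionVars false

noncomputable section

namespace Fermat.Agent.S18.H516

open ModularCurve IntermediateField Fermat.Agent.S28 Fermat.Agent.S18 Fermat.Agent.S18.Mod

section Transport

variable (M : ℕ) [NeZero M] (A : ValuationSubring Qb) (E : IntermediateField ℚ Qb)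

/-- `A ∩ E` as a valuation subring of `E`. -/
def AE : ValuationSubring ↥E := A.comap (algebraMap ↥E Qb)

/-- `A ∩ E → A`. -/
def iotaA : ↥(AE A E) →+* ↥A where
  toFun x := ⟨algebraMap ↥E Qb (x : ↥E), x.2⟩
  map_one' := rfl
  map_mul' _ _ := rfl
  map_zero' := rfl
  map_add' _ _ := rfl

/-- `A ∩ E → k`. -/
def piE : ↥(AE A E) →+* IsLocalRing.ResidueField A := (IsLocalRing.residue A).comp (iotaA A E)

/-- `E((q)) → Q̄((q))`. -/
abbrev PhiE : LaurentSeries ↥E →+* LaurentSeries Qb := coeffMap (algebraMap ↥E Qb)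

theorem PhiE_injective : Function.Injective (PhiE E) := by
  intro x y hxy
  ext m
  have := congrArg (fun z : LaurentSeries Qb => z.coeff m) hxy
  exact this

theorem subtype_comp_iotaA :
    (A.subtype).comp (iotaA A E) = (algebraMap ↥E Qb).comp (AE A E).subtype := rfl

theorem incl_coeffMap_iotaA (U : LaurentSeries ↥(AE A E)) :
    coeffMap A.subtype (coeffMap (iotaA A E) U) = PhiE E (coeffMap (AE A E).subtype U) := by
  rw [coeffMap_coeffMap, coeffMap_coeffMap, subtype_comp_iotaA]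

theorem red_coeffMap_iotaA (U : LaurentSeries ↥(AE A E)) :
    coeffMap (IsLocalRing.residue A) (coeffMap (iotaA A E) U) = coeffMap (piE A E) U := by
  rw [coeffMap_coeffMap]; rfl

/-- The function field over `E`. -/
abbrev FE : IntermediateField ↥E (LaurentSeries ↥E) :=
  laurentBaseChange ↥E (modularFunctionFieldFull M)

theorem coe_jd (d : ℕ) [NeZero d] (hd : d ∣ M) :
    ((jd M d hd : Om M) : LaurentSeries Qb) = qExpand Qb d (jqModC Qb) := by
  show coeffEmb Qb (qExpand ℚ d jq) = _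
  rw [coeffEmb, coeffMap_qExpand, ← jqModC_rat, coeffMap_jqModC]

theorem coe_algebraMap_Om (c : Qb) :
    ((algebraMap Qb (Om M) c : Om M) : LaurentSeries Qb) = HahnSeries.C (Γ := ℤ) c := by
  show algebraMap Qb (LaurentSeries Qb) c = _
  rw [algebraMap_laurentSeries_eq_single, HahnSeries.C_apply]

/-- `Φ` maps `F_E` into `Fc M E`. -/
theorem PhiE_mem_Fc {g : LaurentSeries ↥E} (hg : g ∈ FE M E) :
    ∃ h : PhiE E g ∈ modularFunctionFieldBar M, (⟨PhiE E g, h⟩ : Om M) ∈ Fc M E := by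
  rw [FE, baseChange_eq_fullC] at hg
  unfold modularFunctionFieldFullC at hg
  induction hg using IntermediateField.adjoin_induction with
  | mem x hx =>
    obtain ⟨d, hd, hdM, rfl⟩ := hx
    have h1 : PhiE E (qExpand ↥E d (jqModC ↥E)) = ((jd M d hdM : Om M) : LaurentSeries Qb) := by
      rw [coe_jd, PhiE, coeffMap_qExpand, coeffMap_jqModC]
    refine ⟨h1 ▸ (jd M d hdM).2, ?_⟩
    have h2 : (⟨PhiE E (qExpand ↥E d (jqModC ↥E)), h1 ▸ (jd M d hdM).2⟩ : Om M) = jd M d hdM :=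
      Subtype.ext h1
    rw [h2]
    exact Subfield.subset_closure (Or.inr ⟨d, hd, hdM, rfl⟩)
  | algebraMap e =>
    have h1 : PhiE E (algebraMap ↥E (LaurentSeries ↥E) e) =
        ((algebraMap Qb (Om M) (e : Qb) : Om M) : LaurentSeries Qb) := by
      rw [coe_algebraMap_Om, algebraMap_laurentSeries_eq_single, PhiE, coeffMap_single,
        HahnSeries.C_apply]
      rfl
    refine ⟨h1 ▸ (algebraMap Qb (Om M) (e : Qb)).2, ?_⟩
    have h2 : (⟨PhiE E (algebraMap ↥E (LaurentSeries ↥E) e),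
        h1 ▸ (algebraMap Qb (Om M) (e : Qb)).2⟩ : Om M) = algebraMap Qb (Om M) (e : Qb) :=
      Subtype.ext h1
    rw [h2]
    exact Subfield.subset_closure (Or.inl ⟨(e : Qb), e.2, rfl⟩)
  | add x y _ _ hx hy =>
    obtain ⟨hx1, hx2⟩ := hx
    obtain ⟨hy1, hy2⟩ := hy
    have h1 : PhiE E (x + y) = PhiE E x + PhiE E y := map_add _ _ _
    refine ⟨h1 ▸ add_mem hx1 hy1, ?_⟩
    have h2 : (⟨PhiE E (x + y), h1 ▸ add_mem hx1 hy1⟩ : Om M) =
        ⟨PhiE E x, hx1⟩ + ⟨PhiE E y, hy1⟩ := Subtype.ext h1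
    rw [h2]
    exact add_mem hx2 hy2
  | inv x _ hx =>
    obtain ⟨hx1, hx2⟩ := hx
    have h1 : PhiE E x⁻¹ = (PhiE E x)⁻¹ := map_inv₀ _ _
    refine ⟨h1 ▸ inv_mem hx1, ?_⟩
    have h2 : (⟨PhiE E x⁻¹, h1 ▸ inv_mem hx1⟩ : Om M) = (⟨PhiE E x, hx1⟩ : Om M)⁻¹ :=
      Subtype.ext h1
    rw [h2]
    exact inv_mem hx2
  | mul x y _ _ hx hy =>
    obtain ⟨hx1, hx2⟩ := hx
    obtain ⟨hy1, hy2⟩ := hy
    have h1 : PhiE E (x * y) = PhiE E x * PhiE E y := map_mul _ _ _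
    refine ⟨h1 ▸ mul_mem hx1 hy1, ?_⟩
    have h2 : (⟨PhiE E (x * y), h1 ▸ mul_mem hx1 hy1⟩ : Om M) =
        ⟨PhiE E x, hx1⟩ * ⟨PhiE E y, hy1⟩ := Subtype.ext h1
    rw [h2]
    exact mul_mem hx2 hy2

/-- Every element of `Fc M E` comes from `F_E`. -/
theorem exists_PhiE_eq {f : Om M} (hf : f ∈ Fc M E) :
    ∃ g ∈ FE M E, PhiE E g = (f : LaurentSeries Qb) := by
  unfold Fc at hf
  induction hf using Subfield.closure_induction with
  | mem x hx =>
    rcases hx with ⟨e, he, rfl⟩ | ⟨d, hd, hdM, rfl⟩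
    · refine ⟨algebraMap ↥E (LaurentSeries ↥E) ⟨e, he⟩, (FE M E).algebraMap_mem _, ?_⟩
      show PhiE E _ = ((algebraMap Qb (Om M) e : Om M) : LaurentSeries Qb)
      rw [coe_algebraMap_Om, algebraMap_laurentSeries_eq_single, PhiE, coeffMap_single,
        HahnSeries.C_apply]
      rfl
    · refine ⟨qExpand ↥E d (jqModC ↥E), ?_, ?_⟩
      · rw [FE, baseChange_eq_fullC]
        exact jqModCd_mem_full ↥E M hdM
      · rw [coe_jd, PhiE, coeffMap_qExpand, coeffMap_jqModC]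
  | one => exact ⟨1, one_mem _, map_one _⟩
  | add x y _ _ hx hy =>
    obtain ⟨gx, hgx, hx⟩ := hx
    obtain ⟨gy, hgy, hy⟩ := hy
    exact ⟨gx + gy, add_mem hgx hgy, by rw [map_add, hx, hy]; rfl⟩
  | neg x _ hx =>
    obtain ⟨gx, hgx, hx⟩ := hx
    exact ⟨-gx, neg_mem hgx, by rw [map_neg, hx]; rfl⟩
  | inv x _ hx =>
    obtain ⟨gx, hgx, hx⟩ := hx
    exact ⟨gx⁻¹, inv_mem hgx, by rw [map_inv₀, hx]; rfl⟩
  | mul x y _ _ hx hy =>
    obtain ⟨gx, hgx, hx⟩ := hx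
    obtain ⟨gy, hgy, hy⟩ := hy
    exact ⟨gx * gy, mul_mem hgx hgy, by rw [map_mul, hx, hy]; rfl⟩

/-- Lift of an `E`-rational series over `A` to a series over `A ∩ E`. -/
def liftE (U : LaurentSeries A) (h : ∀ n : ℤ, ((U.coeff n : A) : Qb) ∈ E) :
    LaurentSeries ↥(AE A E) where
  coeff n := ⟨⟨((U.coeff n : A) : Qb), h n⟩, (U.coeff n).2⟩
  isPWO_support' := U.isPWO_support.mono fun n hn => by
    simp only [Function.mem_support, ne_eq] at hn ⊢
    intro h0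
    apply hn
    apply Subtype.ext
    apply Subtype.ext
    show ((U.coeff n : A) : Qb) = 0
    rw [h0]; rfl

theorem coeffMap_iotaA_liftE (U : LaurentSeries A) (h : ∀ n : ℤ, ((U.coeff n : A) : Qb) ∈ E) :
    coeffMap (iotaA A E) (liftE A E U h) = U := by
  ext n
  rfl

theorem isIntE_coeffMap_iotaA {U : LaurentSeries ↥(AE A E)}
    (hU : IsGI (AE A E) M U) : IsIntE M A E (coeffMap (iotaA A E) U) := by
  refine ⟨fun n => ?_, ?_⟩
  · exact ((U.coeff n : ↥(AE A E)) : ↥E).2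
  · obtain ⟨h, hF⟩ := PhiE_mem_Fc M E hU
    exact ⟨⟨_, h⟩, hF, (incl_coeffMap_iotaA A E U).symm⟩

theorem isGI_liftE {U : LaurentSeries A} (hU : IsIntE M A E U) :
    IsGI (AE A E) M (liftE A E U hU.1) := by
  obtain ⟨hE, f', hf', hfU⟩ := hU
  obtain ⟨g', hg', hg'f⟩ := exists_PhiE_eq M E hf'
  have : coeffMap (AE A E).subtype (liftE A E U hE) = g' := by
    apply PhiE_injective E
    rw [hg'f, hfU, ← incl_coeffMap_iotaA, coeffMap_iotaA_liftE]
  unfold IsGI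
  rw [this]
  exact hg'

/-- **Dictionary.** The concrete `VcSet M A E` is the image of the generic Gauss ring of
`(E, A ∩ E, A ∩ E → k)`. -/
theorem mem_VcSet_iff {f : Om M} :
    f ∈ VcSet M A E ↔
      ∃ g ∈ gaussSet (AE A E) (piE A E) M, PhiE E g = (f : LaurentSeries Qb) := by
  constructor
  · rintro ⟨hfF, U₁, U₂, hU₁, hU₂, hU₂k, hfU⟩
    obtain ⟨g, hg, hgf⟩ := exists_PhiE_eq M E hfF
    refine ⟨g, ⟨hg, liftE A E U₁ hU₁.1, liftE A E U₂ hU₂.1, isGI_liftE M A E hU₁,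
      isGI_liftE M A E hU₂, ?_, ?_⟩, hgf⟩
    · rw [← red_coeffMap_iotaA, coeffMap_iotaA_liftE]
      exact hU₂k
    · apply PhiE_injective E
      rw [map_mul, hgf, ← incl_coeffMap_iotaA, ← incl_coeffMap_iotaA, coeffMap_iotaA_liftE,
        coeffMap_iotaA_liftE]
      exact hfU
  · rintro ⟨g, ⟨hg, U₁, U₂, hU₁, hU₂, hU₂k, hgU⟩, hgf⟩
    obtain ⟨h, hF⟩ := PhiE_mem_Fc M E hg
    have hfe : f = ⟨PhiE E g, h⟩ := Subtype.ext hgf.symm
    refine ⟨hfe ▸ hF, coeffMap (iotaA A E) U₁, coeffMap (iotaA A E) U₂,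
      isIntE_coeffMap_iotaA M A E hU₁, isIntE_coeffMap_iotaA M A E hU₂, ?_, ?_⟩
    · rw [red_coeffMap_iotaA]
      exact hU₂k
    · rw [incl_coeffMap_iotaA, incl_coeffMap_iotaA, ← hgf, ← map_mul, hgU]

end Transport

section VFacts

variable (M : ℕ) [NeZero M] (A : ValuationSubring Qb) (E : IntermediateField ℚ Qb)

theorem VcSet_subset_Fc : VcSet M A E ⊆ (Fc M E : Set (Om M)) := fun _ hf => hf.1

variable {M A E}

theorem zero_mem_VcSet : (0 : Om M) ∈ VcSet M A E :=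
  (mem_VcSet_iff M A E).mpr ⟨0, zero_mem_gaussSet, map_zero _⟩

theorem one_mem_VcSet : (1 : Om M) ∈ VcSet M A E :=
  (mem_VcSet_iff M A E).mpr ⟨1, one_mem_gaussSet, map_one _⟩

theorem add_mem_VcSet {f g : Om M} (hf : f ∈ VcSet M A E) (hg : g ∈ VcSet M A E) :
    f + g ∈ VcSet M A E := by
  obtain ⟨a, ha, haf⟩ := (mem_VcSet_iff M A E).mp hf
  obtain ⟨b, hb, hbg⟩ := (mem_VcSet_iff M A E).mp hg
  exact (mem_VcSet_iff M A E).mpr ⟨a + b, add_mem_gaussSet ha hb, by rw [map_add, haf, hbg]; rfl⟩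

theorem neg_mem_VcSet {f : Om M} (hf : f ∈ VcSet M A E) : -f ∈ VcSet M A E := by
  obtain ⟨a, ha, haf⟩ := (mem_VcSet_iff M A E).mp hf
  exact (mem_VcSet_iff M A E).mpr ⟨-a, neg_mem_gaussSet ha, by rw [map_neg, haf]; rfl⟩

theorem mul_mem_VcSet {f g : Om M} (hf : f ∈ VcSet M A E) (hg : g ∈ VcSet M A E) :
    f * g ∈ VcSet M A E := by
  obtain ⟨a, ha, haf⟩ := (mem_VcSet_iff M A E).mp hf
  obtain ⟨b, hb, hbg⟩ := (mem_VcSet_iff M A E).mp hg
  exact (mem_VcSet_iff M A E).mpr ⟨a * b, mul_mem_gaussSet ha hb, by rw [map_mul, haf, hbg]; rfl⟩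

variable (M A E) in
/-- **G-V (subring).** The Gauss valuation ring of `Fc M E` as a subring of `Ω`. -/
def VcRing : Subring (Om M) where
  carrier := VcSet M A E
  mul_mem' := mul_mem_VcSet
  one_mem' := one_mem_VcSet
  add_mem' := add_mem_VcSet
  zero_mem' := zero_mem_VcSet
  neg_mem' := neg_mem_VcSet

theorem coe_VcRing : (VcRing M A E : Set (Om M)) = VcSet M A E := rfl

theorem mem_VcRing {f : Om M} : f ∈ VcRing M A E ↔ f ∈ VcSet M A E := Iff.rfl

/-- **G-V (`V_le`).** -/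
theorem VcRing_le_Fc : (VcRing M A E : Set (Om M)) ⊆ Fc M E := VcSet_subset_Fc M A E

/-- **G-V (`V_total`).** -/
theorem VcRing_total (core : CoreData M (IsLocalRing.ResidueField A)) :
    ∀ f ∈ Fc M E, f ∈ VcRing M A E ∨ f⁻¹ ∈ VcRing M A E := by
  intro f hf
  obtain ⟨g, hg, hgf⟩ := exists_PhiE_eq M E hf
  rcases gaussSet_total (A := AE A E) (π := piE A E) core hg with h | h
  · exact Or.inl ((mem_VcSet_iff M A E).mpr ⟨g, h, hgf⟩)
  · exact Or.inr ((mem_VcSet_iff M A E).mpr ⟨g⁻¹, h, by rw [map_inv₀, hgf]; rfl⟩)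

theorem exists_of_mem_Rc {r : Om M} (hr : r ∈ Rc M A E) :
    ∃ a : Qb, a ∈ A ∧ a ∈ E ∧ algebraMap Qb (Om M) a = r := by
  obtain ⟨a, ⟨haA, haE⟩, rfl⟩ := hr
  exact ⟨a, haA, haE, rfl⟩

theorem mem_Rc_of {a : Qb} (haA : a ∈ A) (haE : a ∈ E) : algebraMap Qb (Om M) a ∈ Rc M A E :=
  ⟨a, ⟨haA, haE⟩, rfl⟩

theorem PhiE_C (e : ↥E) : PhiE E (HahnSeries.C (Γ := ℤ) e) = HahnSeries.C (Γ := ℤ) (e : Qb) :=
  coeffMap_C _ _

/-- **G-V (`R_le_V`).** -/
theorem Rc_le_VcRing : Rc M A E ≤ VcRing M A E := by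
  intro r hr
  obtain ⟨a, haA, haE, rfl⟩ := exists_of_mem_Rc hr
  refine (mem_VcSet_iff M A E).mpr ⟨HahnSeries.C (Γ := ℤ) (⟨a, haE⟩ : ↥E), ?_, ?_⟩
  · exact C_mem_gaussSet (A := AE A E) (⟨⟨a, haE⟩, haA⟩ : ↥(AE A E))
  · rw [PhiE_C, coe_algebraMap_Om]

theorem algebraMap_Om_injective : Function.Injective (algebraMap Qb (Om M)) :=
  (algebraMap Qb (Om M)).injective

/-- **G-V (`w_inv_not_mem_V`).** -/
theorem inv_not_mem_VcRing {w : Om M} (hw : w ∈ Rc M A E) (hw0 : w ≠ 0)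
    (hwinv : w⁻¹ ∉ Rc M A E) : w⁻¹ ∉ VcRing M A E := by
  obtain ⟨a, haA, haE, rfl⟩ := exists_of_mem_Rc hw
  have ha0 : a ≠ 0 := by
    rintro rfl
    exact hw0 (map_zero _)
  have hainv : a⁻¹ ∉ A := by
    intro h
    apply hwinv
    rw [← map_inv₀]
    exact mem_Rc_of h (inv_mem haE)
  have hres : piE A E (⟨⟨a, haE⟩, haA⟩ : ↥(AE A E)) = 0 := by
    show IsLocalRing.residue A ⟨a, haA⟩ = 0
    rw [IsLocalRing.residue_eq_zero_iff]
    rw [IsLocalRing.mem_maximalIdeal, mem_nonunits_iff]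
    intro hu
    apply hainv
    obtain ⟨u, hu⟩ := hu
    have h2 : a * (((u⁻¹ : (↥A)ˣ) : ↥A) : Qb) = 1 := by
      have h3 : ((u : ↥A) : Qb) * (((u⁻¹ : (↥A)ˣ) : ↥A) : Qb) = 1 :=
        congrArg Subtype.val u.mul_inv
      rwa [hu] at h3
    rw [inv_eq_of_mul_eq_one_right h2]
    exact (((u⁻¹ : (↥A)ˣ) : ↥A)).2
  intro hV
  obtain ⟨g, hg, hgf⟩ := (mem_VcSet_iff M A E).mp hV
  have hE0 : (⟨a, haE⟩ : ↥E) ≠ 0 := fun h => ha0 (congrArg Subtype.val h)
  have hg' : g = (HahnSeries.C (Γ := ℤ) (⟨a, haE⟩ : ↥E))⁻¹ := by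
    apply PhiE_injective E
    rw [hgf, map_inv₀, PhiE_C]
    show ((algebraMap Qb (Om M) a)⁻¹ : Om M).1 = _
    rw [← map_inv₀, coe_algebraMap_Om, map_inv₀]
  rw [hg'] at hg
  exact C_inv_not_mem_gaussSet (A := AE A E) (π := piE A E) (N := M)
    (a := (⟨a, haE⟩ : ↥E)) haA hE0 hres hg

/-- **G-V (`V_gen`).** -/
theorem VcRing_gen (core : CoreData M (IsLocalRing.ResidueField A)) {w : Om M}
    (hgen : ∀ r ∈ Rc M A E, r⁻¹ ∉ Rc M A E → r * w⁻¹ ∈ Rc M A E) :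
    ∀ f ∈ VcRing M A E, f⁻¹ ∉ VcRing M A E → f * w⁻¹ ∈ VcRing M A E := by
  intro f hf hf'
  obtain ⟨g, hg, hgf⟩ := (mem_VcSet_iff M A E).mp hf
  have hg' : g⁻¹ ∉ gaussSet (AE A E) (piE A E) M := fun h =>
    hf' ((mem_VcSet_iff M A E).mpr ⟨g⁻¹, h, by rw [map_inv₀, hgf]; rfl⟩)
  obtain ⟨c, u, hcA, hcinv, rfl, hu, hu'⟩ :=
    exists_nonunit_factor (A := AE A E) (π := piE A E) core hg hg'
  have hr : algebraMap Qb (Om M) (c : Qb) ∈ Rc M A E := mem_Rc_of hcA c.2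
  have hrinv : (algebraMap Qb (Om M) (c : Qb))⁻¹ ∉ Rc M A E := by
    intro h
    obtain ⟨b, hbA, hbE, hb⟩ := exists_of_mem_Rc h
    have hbc : b = (c : Qb)⁻¹ := algebraMap_Om_injective (by rw [hb, map_inv₀])
    apply hcinv
    show algebraMap ↥E Qb (c⁻¹) ∈ A
    rw [map_inv₀]
    exact hbc ▸ hbA
  have h1 := hgen _ hr hrinv
  obtain ⟨hu1, hu2⟩ := PhiE_mem_Fc M E hu.1
  have hfu : (⟨PhiE E u, hu1⟩ : Om M) ∈ VcSet M A E :=
    (mem_VcSet_iff M A E).mpr ⟨u, hu, rfl⟩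
  have hf_eq : f = algebraMap Qb (Om M) (c : Qb) * ⟨PhiE E u, hu1⟩ := by
    apply Subtype.ext
    rw [← hgf, map_mul, PhiE_C]
    show _ = ((algebraMap Qb (Om M) (c : Qb) : Om M) : LaurentSeries Qb) * _
    rw [coe_algebraMap_Om]
  have : f * w⁻¹ = (algebraMap Qb (Om M) (c : Qb) * w⁻¹) * ⟨PhiE E u, hu1⟩ := by
    rw [hf_eq]; ring
  rw [this]
  exact mul_mem_VcSet (Rc_le_VcRing h1) hfu

variable (M) in
/-- A coordinate with an integral model `X = q⁻¹ + … ∈ ℤ((q))` (as in `Mod.IsCoordinate`). -/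
def HasIntModel (x : Om M) : Prop :=
  ∃ X : LaurentSeries ℤ, X.coeff (-1) = 1 ∧ (∀ k : ℤ, k < -1 → X.coeff k = 0) ∧
    (x : LaurentSeries Qb) = coeffMap (Int.castRingHom Qb) X ∧
    coeffMap (Int.castRingHom ℚ) X ∈ modularFunctionFieldFull M

theorem hasIntModel_jOm : HasIntModel M (jOm M) := by
  refine ⟨jqModC ℤ, coeff_jqModC_neg_one ℤ, fun k hk => coeff_jqModC_of_lt ℤ hk, ?_, ?_⟩
  · show ((jd M 1 (one_dvd M) : Om M) : LaurentSeries Qb) = _
    rw [coe_jd, coeffMap_jqModC, qExpand_one_apply]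
  · rw [coeffMap_jqModC, jqModC_rat]
    exact modularFunctionField_le_full M (jq_mem M)

theorem IsCoordinate.hasIntModel {ℓ : ℕ} {x : Om M} {S : Finset (Om M)}
    (h : IsCoordinate M ℓ x S) : HasIntModel M x := by
  rcases h with ⟨-, rfl, -⟩ | ⟨-, h⟩
  · exact hasIntModel_jOm
  · exact h

/-- **G-V (`x_mem_V`, v4).** -/
theorem mem_VcRing_of_hasIntModel {x : Om M} (hx : HasIntModel M x) : x ∈ VcRing M A E := by
  obtain ⟨X, -, -, hxX, hXF⟩ := hx
  have hGI : IsGI (AE A E) M (coeffMap (Int.castRingHom ↥(AE A E)) X) := by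
    unfold IsGI
    rw [coeffMap_coeffMap,
      show ((AE A E).subtype.comp (Int.castRingHom ↥(AE A E))) = Int.castRingHom ↥E from
        RingHom.ext_int _ _, coeffMap_intCast_eq_coeffEmb]
    exact coeffEmb_mem_laurentBaseChange ↥E hXF
  refine (mem_VcSet_iff M A E).mpr ⟨_, incl_mem_gaussSet (π := piE A E) hGI, ?_⟩
  rw [hxX, PhiE, coeffMap_coeffMap, coeffMap_coeffMap]
  exact coeffMap_congr (RingHom.ext_int _ _) X

/-- **G-V (`gauss`).** -/
theorem VcRing_gauss {x : Om M} (hx : HasIntModel M x) :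
    ∀ P : Polynomial (Om M), (∀ i, P.coeff i ∈ Rc M A E) →
      (∃ i, P.coeff i ≠ 0 ∧ (P.coeff i)⁻¹ ∈ Rc M A E) → (P.eval x)⁻¹ ∈ VcRing M A E := by
  classical
  intro P hP ⟨i0, hi0, hi0'⟩
  obtain ⟨X, hX1, hX2, hxX, hXF⟩ := hx
  choose a haA haE ha using fun i => exists_of_mem_Rc (hP i)
  set aE : ℕ → ↥(AE A E) := fun i => ⟨⟨a i, haE i⟩, haA i⟩ with haEdef
  set PE : Polynomial ↥(AE A E) := ∑ i ∈ P.support, Polynomial.C (aE i) * Polynomial.X ^ i
    with hPE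
  set XE : LaurentSeries ↥(AE A E) := coeffMap (Int.castRingHom ↥(AE A E)) X with hXE
  have hXE_GI : IsGI (AE A E) M XE := by
    unfold IsGI
    rw [hXE, coeffMap_coeffMap,
      show ((AE A E).subtype.comp (Int.castRingHom ↥(AE A E))) = Int.castRingHom ↥E from
        RingHom.ext_int _ _, coeffMap_intCast_eq_coeffEmb]
    exact coeffEmb_mem_laurentBaseChange ↥E hXF
  have hXk : (coeffMap (piE A E) XE).order ≠ 0 := by
    have h1 : coeffMap (piE A E) XE =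
        coeffMap (Int.castRingHom (IsLocalRing.ResidueField A)) X := by
      rw [hXE, coeffMap_coeffMap]
      exact coeffMap_congr (RingHom.ext_int _ _) X
    rw [h1, order_of_coeff_neg_one (X := coeffMap (Int.castRingHom (IsLocalRing.ResidueField A)) X)
      (by rw [coeffMap_coeff, hX1, map_one])
      (fun n hn => by rw [coeffMap_coeff, hX2 n hn, map_zero])]
    norm_num
  have hcoeff : PE.coeff i0 = aE i0 := by
    rw [hPE, Polynomial.finsetSum_coeff]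
    rw [Finset.sum_eq_single i0]
    · rw [Polynomial.coeff_C_mul, Polynomial.coeff_X_pow, if_pos rfl, mul_one]
    · intro j _ hj
      rw [Polynomial.coeff_C_mul, Polynomial.coeff_X_pow, if_neg (Ne.symm hj), mul_zero]
    · intro h
      exact absurd (Polynomial.mem_support_iff.mpr hi0) h
  have hPEk : PE.map (piE A E) ≠ 0 := by
    intro h
    have h1 := congrArg (fun Q : Polynomial (IsLocalRing.ResidueField A) => Q.coeff i0) h
    simp only [Polynomial.coeff_map, Polynomial.coeff_zero, hcoeff] at h1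
    -- `a i0` is a unit of `A`
    obtain ⟨b, hbA, hbE, hb⟩ := exists_of_mem_Rc hi0'
    have hbinv : b = (a i0)⁻¹ := algebraMap_Om_injective (by rw [hb, ← ha i0, map_inv₀])
    have ha0 : a i0 ≠ 0 := by
      intro h0
      apply hi0
      rw [← ha i0, h0, map_zero]
    have hunit : IsUnit (⟨a i0, haA i0⟩ : ↥A) := by
      refine isUnit_iff_exists_inv.mpr ⟨⟨b, hbA⟩, ?_⟩
      apply Subtype.ext
      show a i0 * b = 1
      rw [hbinv, mul_inv_cancel₀ ha0]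
    have : IsLocalRing.residue A ⟨a i0, haA i0⟩ = 0 := h1
    rw [IsLocalRing.residue_eq_zero_iff, IsLocalRing.mem_maximalIdeal, mem_nonunits_iff] at this
    exact this hunit
  have key := inv_eval_mem_gaussSet (A := AE A E) (π := piE A E) (N := M) hXE_GI hXk PE hPEk
  refine (mem_VcSet_iff M A E).mpr ⟨_, key, ?_⟩
  rw [map_inv₀]
  show _ = ((P.eval x)⁻¹ : Om M).1
  have hval : PhiE E (coeffMap (AE A E).subtype (PE.eval₂ (HahnSeries.C (Γ := ℤ)) XE)) =
      ((P.eval x : Om M) : LaurentSeries Qb) := by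
    rw [Polynomial.eval_eq_sum, Polynomial.sum_def, hPE, Polynomial.eval₂_finsetSum]
    rw [map_sum, map_sum]
    have hcoe : ((∑ i ∈ P.support, P.coeff i * x ^ i : Om M) : LaurentSeries Qb) =
        ∑ i ∈ P.support, ((P.coeff i : Om M) : LaurentSeries Qb) * (x : LaurentSeries Qb) ^ i := by
      show (modularFunctionFieldBar M).val (∑ i ∈ P.support, P.coeff i * x ^ i) = _
      rw [map_sum]
      refine Finset.sum_congr rfl fun i _ => ?_
      rw [map_mul, map_pow]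
      rfl
    rw [hcoe]
    refine Finset.sum_congr rfl fun i _ => ?_
    rw [Polynomial.eval₂_mul, Polynomial.eval₂_C, Polynomial.eval₂_pow, Polynomial.eval₂_X,
      map_mul, map_mul, map_pow, map_pow, coeffMap_C, coeffMap_C, ← ha i, coe_algebraMap_Om,
      hxX, hXE, coeffMap_coeffMap, coeffMap_coeffMap]
    congr 2
  rw [hval]
  rfl

end VFacts

end Fermat.Agent.S18.H516
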