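import Mathlib
import Fermat.Prelude.Def_ModularCurve_ReductionModL
import Fermat.Agent.S28.Defs
import Fermat.Agent.S28.H325.Glue
import Fermat.Agent.S18.H516.GaussRes
import Fermat.Agent.S18.H516.CoreRes
import Fermat.Agent.S18.MOD.H516.GaussV
import Fermat.Agent.S18.H264.SepLift
import Fermat.Agent.S18.H456.ModRes

/-!
# S18 / MOD piece G-SEP (helper516): the field `separable` of `Alg.GoodModel`

The concrete reduction map `red : V → κ((q))`, `κ` the residue field of `A ∩ E`, and the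
hypotheses of helper264's `H264.goodModel_separable_of_red`.

HAND-IN: `sep_field_of_isCoordinate`.
-/

set_option autoImplicit false
set_option linter.unusedSectionVars false

noncomputable section

namespace Fermat.Agent.S18.H516

open ModularCurve IntermediateField Fermat.Agent.S28 Fermat.Agent.S18 Fermat.Agent.S18.Mod

section Congr

variable {L : Type*} [Field L] [Algebra ℚ L] (A : ValuationSubring L)
variable {k k' : Type} [Field k] [Field k'] (π : A →+* k) (π' : A →+* k') (N : ℕ) [NeZero N]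

theorem coeffMap_ne_zero_iff {R S : Type*} [CommRing R] [CommRing S] (φ : R →+* S)
    (U : LaurentSeries R) : coeffMap φ U ≠ 0 ↔ ∃ n : ℤ, φ (U.coeff n) ≠ 0 := by
  constructor
  · intro h
    by_contra hcon
    push Not at hcon
    apply h
    ext n
    exact hcon n
  · rintro ⟨n, hn⟩ h
    apply hn
    have := congrArg (fun z : LaurentSeries S => z.coeff n) h
    exact this

/-- The Gauss ring only depends on the kernel of the residue map. -/
theorem gaussSet_congr (h : ∀ a : A, π a = 0 ↔ π' a = 0) :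
    gaussSet A π N = gaussSet A π' N := by
  ext f
  constructor
  · rintro ⟨hf, U₁, U₂, h₁, h₂, hk, heq⟩
    refine ⟨hf, U₁, U₂, h₁, h₂, ?_, heq⟩
    rw [coeffMap_ne_zero_iff] at hk ⊢
    obtain ⟨n, hn⟩ := hk
    exact ⟨n, fun h0 => hn ((h _).mpr h0)⟩
  · rintro ⟨hf, U₁, U₂, h₁, h₂, hk, heq⟩
    refine ⟨hf, U₁, U₂, h₁, h₂, ?_, heq⟩
    rw [coeffMap_ne_zero_iff] at hk ⊢
    obtain ⟨n, hn⟩ := hk
    exact ⟨n, fun h0 => hn ((h _).mp h0)⟩

end Congr

section Kappa

variable (M : ℕ) [NeZero M] (A : ValuationSubring Qb) (E : IntermediateField ℚ Qb)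

/-- The residue field of `A ∩ E`. -/
abbrev KapE : Type := IsLocalRing.ResidueField ↥(AE A E)

/-- The residue map of `A ∩ E`. -/
abbrev resE : ↥(AE A E) →+* KapE A E := IsLocalRing.residue ↥(AE A E)

theorem isUnit_iotaA_iff (a : ↥(AE A E)) : IsUnit (iotaA A E a) ↔ IsUnit a := by
  constructor
  · rintro ⟨u, hu⟩
    have hval : ((u : ↥A) : Qb) = ((a : ↥E) : Qb) := congrArg Subtype.val hu
    have hinv : ((a : ↥E) : Qb) * (((u⁻¹ : (↥A)ˣ) : ↥A) : Qb) = 1 := by
      rw [← hval]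
      exact congrArg Subtype.val u.mul_inv
    have hmem : (((a : ↥E)⁻¹ : ↥E) : Qb) ∈ A := by
      have : (((a : ↥E)⁻¹ : ↥E) : Qb) = (((u⁻¹ : (↥A)ˣ) : ↥A) : Qb) := by
        rw [show (((a : ↥E)⁻¹ : ↥E) : Qb) = ((a : ↥E) : Qb)⁻¹ from rfl]
        exact inv_eq_of_mul_eq_one_right hinv
      rw [this]
      exact (((u⁻¹ : (↥A)ˣ) : ↥A)).2
    have ha0 : (a : ↥E) ≠ 0 := by
      intro h0
      rw [h0] at hinv
      simp at hinv
    refine IsUnit.of_mul_eq_one (⟨(a : ↥E)⁻¹, hmem⟩ : ↥(AE A E)) ?_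
    apply Subtype.ext
    show (a : ↥E) * (a : ↥E)⁻¹ = 1
    exact mul_inv_cancel₀ ha0
  · intro h
    exact h.map (iotaA A E)

theorem piE_eq_zero_iff (a : ↥(AE A E)) : piE A E a = 0 ↔ resE A E a = 0 := by
  show IsLocalRing.residue A (iotaA A E a) = 0 ↔ IsLocalRing.residue ↥(AE A E) a = 0
  rw [IsLocalRing.residue_eq_zero_iff, IsLocalRing.residue_eq_zero_iff,
    IsLocalRing.mem_maximalIdeal, IsLocalRing.mem_maximalIdeal, mem_nonunits_iff,
    mem_nonunits_iff, isUnit_iotaA_iff]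

theorem gaussSet_piE_eq : gaussSet (AE A E) (piE A E) M = gaussSet (AE A E) (resE A E) M :=
  gaussSet_congr (AE A E) (piE A E) (resE A E) M (piE_eq_zero_iff A E)

end Kappa

section Red

variable (M : ℕ) [NeZero M] (A : ValuationSubring Qb) (E : IntermediateField ℚ Qb)

/-- `A ∩ E → Rc`, `a ↦` the constant `a`. -/
def toRc : ↥(AE A E) →+* ↥(Rc M A E) where
  toFun a := ⟨algebraMap Qb (Om M) ((a : ↥E) : Qb), mem_Rc_of a.2 (a : ↥E).2⟩
  map_one' := Subtype.ext (map_one (algebraMap Qb (Om M)))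
  map_mul' _ _ := Subtype.ext (map_mul (algebraMap Qb (Om M)) _ _)
  map_zero' := Subtype.ext (map_zero (algebraMap Qb (Om M)))
  map_add' _ _ := Subtype.ext (map_add (algebraMap Qb (Om M)) _ _)

theorem toRc_bijective : Function.Bijective (toRc M A E) := by
  constructor
  · intro a b hab
    have h1 : algebraMap Qb (Om M) ((a : ↥E) : Qb) = algebraMap Qb (Om M) ((b : ↥E) : Qb) :=
      congrArg Subtype.val hab
    exact Subtype.ext (Subtype.ext (algebraMap_Om_injective h1))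
  · rintro ⟨r, hr⟩
    obtain ⟨a, haA, haE, rfl⟩ := exists_of_mem_Rc hr
    exact ⟨⟨⟨a, haE⟩, haA⟩, rfl⟩

/-- `Rc ≃ A ∩ E`. -/
def rcEquiv : ↥(AE A E) ≃+* ↥(Rc M A E) :=
  RingEquiv.ofBijective (toRc M A E) (toRc_bijective M A E)

/-- The residue map of `Rc`. -/
def rhoE : ↥(Rc M A E) →+* KapE A E :=
  (resE A E).comp (rcEquiv M A E).symm.toRingHom

theorem rhoE_toRc (a : ↥(AE A E)) : rhoE M A E (toRc M A E a) = resE A E a := by
  show resE A E ((rcEquiv M A E).symm (rcEquiv M A E a)) = _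
  rw [RingEquiv.symm_apply_apply]

theorem rhoE_surjective : Function.Surjective (rhoE M A E) := by
  intro c
  obtain ⟨a, rfl⟩ := IsLocalRing.residue_surjective c
  exact ⟨toRc M A E a, rhoE_toRc M A E a⟩

theorem PhiE_mem_VcRing (g : ↥(gaussRing (AE A E) (resE A E) M)) :
    ∃ h : PhiE E (g : LaurentSeries ↥E) ∈ modularFunctionFieldBar M,
      (⟨PhiE E (g : LaurentSeries ↥E), h⟩ : Om M) ∈ VcRing M A E := by
  obtain ⟨h, -⟩ := PhiE_mem_Fc M E g.2.1
  refine ⟨h, (mem_VcSet_iff M A E).mpr ⟨g.1, ?_, rfl⟩⟩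
  rw [gaussSet_piE_eq]
  exact g.2

/-- The generic Gauss ring of `(E, A ∩ E)` maps isomorphically onto `VcRing M A E`. -/
def ofGauss : ↥(gaussRing (AE A E) (resE A E) M) →+* ↥(VcRing M A E) where
  toFun g := ⟨⟨PhiE E (g : LaurentSeries ↥E), (PhiE_mem_VcRing M A E g).fst⟩,
    (PhiE_mem_VcRing M A E g).snd⟩
  map_one' := Subtype.ext (Subtype.ext (map_one (PhiE E)))
  map_mul' _ _ := Subtype.ext (Subtype.ext (map_mul (PhiE E) _ _))
  map_zero' := Subtype.ext (Subtype.ext (map_zero (PhiE E)))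
  map_add' _ _ := Subtype.ext (Subtype.ext (map_add (PhiE E) _ _))

theorem coe_ofGauss (g : ↥(gaussRing (AE A E) (resE A E) M)) :
    (((ofGauss M A E g : ↥(VcRing M A E)) : Om M) : LaurentSeries Qb) =
      PhiE E (g : LaurentSeries ↥E) := rfl

theorem ofGauss_bijective : Function.Bijective (ofGauss M A E) := by
  constructor
  · intro a b hab
    have h1 : PhiE E (a : LaurentSeries ↥E) = PhiE E (b : LaurentSeries ↥E) :=
      congrArg (fun z : ↥(VcRing M A E) => ((z : Om M) : LaurentSeries Qb)) hab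
    exact Subtype.ext (PhiE_injective E h1)
  · rintro ⟨f, hf⟩
    obtain ⟨g, hg, hgf⟩ := (mem_VcSet_iff M A E).mp hf
    rw [gaussSet_piE_eq] at hg
    exact ⟨⟨g, hg⟩, Subtype.ext (Subtype.ext hgf)⟩

/-- `gaussRing ≃ VcRing`. -/
def gaussEquiv : ↥(gaussRing (AE A E) (resE A E) M) ≃+* ↥(VcRing M A E) :=
  RingEquiv.ofBijective (ofGauss M A E) (ofGauss_bijective M A E)

/-- **The reduction map** `V → κ((q))`. -/
def redV : ↥(VcRing M A E) →+* LaurentSeries (KapE A E) :=
  (gaussRes (AE A E) (resE A E) M).comp (gaussEquiv M A E).symm.toRingHom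

theorem redV_ofGauss (g : ↥(gaussRing (AE A E) (resE A E) M)) :
    redV M A E (ofGauss M A E g) = gaussRes (AE A E) (resE A E) M g := by
  show gaussRes (AE A E) (resE A E) M ((gaussEquiv M A E).symm (gaussEquiv M A E g)) = _
  rw [RingEquiv.symm_apply_apply]

theorem exists_ofGauss_eq (f : ↥(VcRing M A E)) :
    ∃ g : ↥(gaussRing (AE A E) (resE A E) M), ofGauss M A E g = f :=
  (ofGauss_bijective M A E).2 f

/-- `red` on constants (`hcompat`). -/
theorem redV_compat (r : ↥(Rc M A E)) :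
    redV M A E ⟨r, Rc_le_VcRing r.2⟩ =
      algebraMap (KapE A E) (LaurentSeries (KapE A E)) (rhoE M A E r) := by
  obtain ⟨a, rfl⟩ := (toRc_bijective M A E).2 r
  rw [rhoE_toRc, algebraMap_eq_C]
  have h1 : (⟨(toRc M A E a : Om M), Rc_le_VcRing (toRc M A E a).2⟩ : ↥(VcRing M A E)) =
      ofGauss M A E ⟨HahnSeries.C (Γ := ℤ) ((a : ↥E)), C_mem_gaussSet a⟩ := by
    apply Subtype.ext
    apply Subtype.ext
    rw [coe_ofGauss]
    show ((algebraMap Qb (Om M) ((a : ↥E) : Qb) : Om M) : LaurentSeries Qb) = _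
    rw [coe_algebraMap_Om, PhiE_C]
  rw [h1, redV_ofGauss, gaussRes_C]

/-- `hunit`. -/
theorem redV_unit (f : ↥(VcRing M A E)) (hf : redV M A E f ≠ 0) :
    (f : Om M)⁻¹ ∈ VcRing M A E := by
  obtain ⟨g, rfl⟩ := exists_ofGauss_eq M A E f
  rw [redV_ofGauss] at hf
  have h := inv_mem_of_gaussRes_ne_zero g hf
  refine (mem_VcSet_iff M A E).mpr ⟨(g : LaurentSeries ↥E)⁻¹, ?_, ?_⟩
  · rw [gaussSet_piE_eq]
    exact h
  · rw [map_inv₀]
    rfl

/-- `hker`, from `V_gen`. -/
theorem redV_ker (core : CoreData M (IsLocalRing.ResidueField A)) {w : Om M}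
    (hgen : ∀ r ∈ Rc M A E, r⁻¹ ∉ Rc M A E → r * w⁻¹ ∈ Rc M A E)
    (f : ↥(VcRing M A E)) (hf : redV M A E f = 0) : (f : Om M) * w⁻¹ ∈ VcRing M A E := by
  by_cases hf0 : (f : Om M) = 0
  · rw [hf0, zero_mul]
    exact zero_mem _
  · refine VcRing_gen core hgen f f.2 ?_
    intro hinv
    have h1 : f * ⟨(f : Om M)⁻¹, hinv⟩ = 1 := Subtype.ext (mul_inv_cancel₀ hf0)
    have h2 := congrArg (redV M A E) h1
    rw [map_mul, hf, zero_mul, map_one] at h2
    exact zero_ne_one h2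

/-- `red` of a coordinate with integral model `X`. -/
theorem redV_intModel {x : Om M} {X : LaurentSeries ℤ}
    (hxX : (x : LaurentSeries Qb) = coeffMap (Int.castRingHom Qb) X)
    (hXF : coeffMap (Int.castRingHom ℚ) X ∈ modularFunctionFieldFull M)
    (hx : x ∈ VcRing M A E) :
    redV M A E ⟨x, hx⟩ = coeffMap (Int.castRingHom (KapE A E)) X := by
  have hGI : IsGI (AE A E) M (coeffMap (Int.castRingHom ↥(AE A E)) X) := by
    unfold IsGI
    rw [coeffMap_coeffMap,
      show ((AE A E).subtype.comp (Int.castRingHom ↥(AE A E))) = Int.castRingHom ↥E from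
        RingHom.ext_int _ _, coeffMap_intCast_eq_coeffEmb]
    exact coeffEmb_mem_laurentBaseChange ↥E hXF
  have h1 : (⟨x, hx⟩ : ↥(VcRing M A E)) =
      ofGauss M A E ⟨_, incl_mem_gaussSet (π := resE A E) hGI⟩ := by
    apply Subtype.ext
    apply Subtype.ext
    rw [coe_ofGauss]
    show (x : LaurentSeries Qb) = _
    rw [hxX, PhiE, coeffMap_coeffMap, coeffMap_coeffMap]
    exact coeffMap_congr (RingHom.ext_int _ _) X
  rw [h1, redV_ofGauss, gaussRes_incl hGI, coeffMap_coeffMap]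
  exact coeffMap_congr (RingHom.ext_int _ _) X

theorem redV_jOm (hj : jOm M ∈ VcRing M A E) :
    redV M A E ⟨jOm M, hj⟩ = jqModC (KapE A E) := by
  obtain ⟨X, h1, h2, hxX, hXF⟩ := hasIntModel_jOm (M := M)
  have hX : X = jqModC ℤ := by
    have h3 : coeffMap (Int.castRingHom Qb) X = coeffMap (Int.castRingHom Qb) (jqModC ℤ) := by
      rw [← hxX]
      show ((jd M 1 (one_dvd M) : Om M) : LaurentSeries Qb) = _
      rw [coe_jd, coeffMap_jqModC, qExpand_one_apply]
    ext n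
    have h4 := congrArg (fun z : LaurentSeries Qb => z.coeff n) h3
    exact Int.cast_injective (α := Qb) h4
  rw [redV_intModel M A E hxX hXF hj, hX, coeffMap_jqModC]

/-- `ord_q (red x) = -1`. -/
theorem order_redV {x : Om M} (hx : HasIntModel M x) (hxV : x ∈ VcRing M A E) :
    (redV M A E ⟨x, hxV⟩).order = -1 := by
  obtain ⟨X, h1, h2, hxX, hXF⟩ := hx
  rw [redV_intModel M A E hxX hXF hxV]
  apply order_of_coeff_neg_one
  · show Int.castRingHom (KapE A E) (X.coeff (-1)) = 1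
    rw [h1, map_one]
  · intro n hn
    show Int.castRingHom (KapE A E) (X.coeff n) = 0
    rw [h2 n hn, map_zero]

end Red

section Alg

/-- Algebraicity passes to a larger base field. -/
theorem isAlgebraic_of_le {F L : Type*} [Field F] [Field L] [Algebra F L]
    {K K' : IntermediateField F L} (h : K ≤ K') {y : L} (hy : IsAlgebraic K y) :
    IsAlgebraic K' y := by
  obtain ⟨p, hp0, hp⟩ := hy
  refine ⟨p.map (IntermediateField.inclusion h).toRingHom, ?_, ?_⟩
  · exact (Polynomial.map_ne_zero_iff (IntermediateField.inclusion h).toRingHom.injective).mpr hp0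
  · rw [Polynomial.aeval_def, Polynomial.eval₂_map]
    rw [Polynomial.aeval_def] at hp
    exact hp

variable (κ : Type) [Field κ] (N : ℕ) [NeZero N]

/-- Every element of `F_κ` is algebraic over `κ(j̄)`. -/
theorem isAlgebraic_jField_of_mem_fullC (core : CoreData N κ) {y : LaurentSeries κ}
    (hy : y ∈ modularFunctionFieldFullC κ N) : IsAlgebraic (jField κ) y := by
  have hint : ∀ z ∈ divisorExpansionsC κ N, IsIntegral (jField κ) z := by
    rintro z ⟨d, hd, hdN, rfl⟩
    exact H325.isIntegral_jField_of_monic κ d (core.integral d hdN)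
  have h1 : y ∈ IntermediateField.adjoin (jField κ) (divisorExpansionsC κ N) := by
    have h2 : modularFunctionFieldFullC κ N ≤
        (IntermediateField.adjoin (jField κ) (divisorExpansionsC κ N)).restrictScalars κ := by
      rw [modularFunctionFieldFullC, IntermediateField.adjoin_le_iff]
      intro z hz
      exact IntermediateField.subset_adjoin (jField κ) _ hz
    exact h2 hy
  have h3 : Algebra.IsAlgebraic (jField κ)
      (IntermediateField.adjoin (jField κ) (divisorExpansionsC κ N)) :=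
    IntermediateField.isAlgebraic_adjoin hint
  have h4 := h3.isAlgebraic ⟨y, h1⟩
  exact h4.algebraMap (A := LaurentSeries κ)

end Alg

section Main

variable {M : ℕ} [NeZero M] {A : ValuationSubring Qb} {E : IntermediateField ℚ Qb}

theorem liesOverPrime_AE {ℓ : ℕ} (hA : A.LiesOverPrime ℓ) : (AE A E).LiesOverPrime ℓ := by
  have h1 : (ℓ : Qb) ∈ A.nonunits := hA
  show (ℓ : ↥E) ∈ (AE A E).nonunits
  rw [ValuationSubring.mem_nonunits_iff_exists_mem_maximalIdeal] at h1 ⊢
  obtain ⟨hm, hmax⟩ := h1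
  have hm' : (ℓ : ↥E) ∈ AE A E := by
    show algebraMap ↥E Qb (ℓ : ↥E) ∈ A
    rw [map_natCast]
    exact hm
  refine ⟨hm', ?_⟩
  rw [IsLocalRing.mem_maximalIdeal, mem_nonunits_iff] at hmax ⊢
  intro hu
  apply hmax
  have h2 := (isUnit_iotaA_iff A E ⟨(ℓ : ↥E), hm'⟩).mpr hu
  have h3 : iotaA A E ⟨(ℓ : ↥E), hm'⟩ = ⟨(ℓ : Qb), hm⟩ :=
    Subtype.ext (map_natCast (algebraMap ↥E Qb) ℓ)
  rw [← h3]
  exact h2

/-- `j̄ ∈ κ(x̄)` for an admissible coordinate. -/
theorem jqModC_mem_adjoin_redV {ℓ : ℕ} {x : Om M} {S : Finset (Om M)}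
    (hx : IsCoordinate M ℓ x S) (hxV : x ∈ VcRing M A E) :
    jqModC (KapE A E) ∈ IntermediateField.adjoin (KapE A E) {redV M A E ⟨x, hxV⟩} := by
  have hjV : jOm M ∈ VcRing M A E := mem_VcRing_of_hasIntModel hasIntModel_jOm
  have hxbar : redV M A E ⟨x, hxV⟩ ∈
      IntermediateField.adjoin (KapE A E) {redV M A E ⟨x, hxV⟩} :=
    IntermediateField.mem_adjoin_simple_self _ _
  have hne : redV M A E ⟨x, hxV⟩ ≠ 0 := by
    intro h0
    have := order_redV M A E (Fermat.Agent.S18.H516.IsCoordinate.hasIntModel hx) hxV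
    rw [h0, HahnSeries.order_zero] at this
    omega
  rcases hx with ⟨-, rfl, -⟩ | ⟨h | h, -⟩
  · rw [← redV_jOm M A E hxV]
    exact hxbar
  · obtain ⟨-, hrel, -⟩ := h
    have h1 : (⟨jOm M, hjV⟩ : ↥(VcRing M A E)) * ⟨x, hxV⟩ ^ 2 = (⟨x, hxV⟩ + 256) ^ 3 :=
      Subtype.ext hrel
    have h2 := congrArg (redV M A E) h1
    rw [map_mul, map_pow, map_pow, map_add, redV_jOm, map_ofNat] at h2
    have h3 : jqModC (KapE A E) =
        (redV M A E ⟨x, hxV⟩ + 256) ^ 3 * ((redV M A E ⟨x, hxV⟩) ^ 2)⁻¹ := by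
      rw [← h2, mul_assoc, mul_inv_cancel₀ (pow_ne_zero _ hne), mul_one]
    rw [h3]
    exact mul_mem (pow_mem (add_mem hxbar (ofNat_mem _ 256)) _) (inv_mem (pow_mem hxbar _))
  · obtain ⟨-, hrel, -⟩ := h
    have h1 : (⟨jOm M, hjV⟩ : ↥(VcRing M A E)) * ⟨x, hxV⟩ ^ 3 =
        (⟨x, hxV⟩ + 27) * (⟨x, hxV⟩ + 243) ^ 3 :=
      Subtype.ext hrel
    have h2 := congrArg (redV M A E) h1
    rw [map_mul, map_pow, map_mul, map_pow, map_add, map_add, redV_jOm, map_ofNat,
      map_ofNat] at h2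
    have h3 : jqModC (KapE A E) =
        (redV M A E ⟨x, hxV⟩ + 27) * (redV M A E ⟨x, hxV⟩ + 243) ^ 3 *
          ((redV M A E ⟨x, hxV⟩) ^ 3)⁻¹ := by
      rw [← h2, mul_assoc, mul_inv_cancel₀ (pow_ne_zero _ hne), mul_one]
    rw [h3]
    exact mul_mem (mul_mem (add_mem hxbar (ofNat_mem _ 27))
      (pow_mem (add_mem hxbar (ofNat_mem _ 243)) _)) (inv_mem (pow_mem hxbar _))

/-- `halg`. -/
theorem redV_algebraic (core : CoreData M (KapE A E)) {ℓ : ℕ} {x : Om M} {S : Finset (Om M)}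
    (hx : IsCoordinate M ℓ x S) (hxV : x ∈ VcRing M A E) (f : ↥(VcRing M A E)) :
    IsAlgebraic (IntermediateField.adjoin (KapE A E) {redV M A E ⟨x, hxV⟩}) (redV M A E f) := by
  have h1 : redV M A E f ∈ modularFunctionFieldFullC (KapE A E) M :=
    gaussRes_mem core _
  have h2 := isAlgebraic_jField_of_mem_fullC (KapE A E) M core h1
  refine isAlgebraic_of_le ?_ h2
  rw [jField, IntermediateField.adjoin_le_iff]
  rintro y rfl
  exact jqModC_mem_adjoin_redV hx hxV

/-- **G-SEP for `VcRing`.** -/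
theorem sep_field_VcRing {ℓ : ℕ} (hℓ : ℓ.Prime) (hℓM : ¬ ℓ ∣ M) (hA : A.LiesOverPrime ℓ)
    [FiniteDimensional ℚ E] {w : Om M}
    (hgen : ∀ r ∈ Rc M A E, r⁻¹ ∉ Rc M A E → r * w⁻¹ ∈ Rc M A E)
    {x : Om M} {S : Finset (Om M)} (hx : IsCoordinate M ℓ x S) :
    ∀ f ∈ VcRing M A E, ∃ P : Polynomial (Om M),
      (∀ i, P.coeff i ∈ Alg.polyRing (Rc M A E) x) ∧
      P.eval f * w⁻¹ ∈ VcRing M A E ∧ (Polynomial.derivative P).eval f ≠ 0 ∧
      ((Polynomial.derivative P).eval f)⁻¹ ∈ VcRing M A E := by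
  have : Fact ℓ.Prime := ⟨hℓ⟩
  have : NumberField ↥E := H602.numberField_of_finiteDimensional E
  have : Finite (KapE A E) := H456.finite_residueField A E hℓ.ne_zero hA
  have : CharP (KapE A E) ℓ := charP_residue (AE A E) (liesOverPrime_AE hA)
  have : PerfectField (KapE A E) := PerfectField.ofFinite
  have coreA : CoreData M (IsLocalRing.ResidueField A) := coreData_residue M hℓM A hA
  have coreκ : CoreData M (KapE A E) := coreData_of_charP M ℓ hℓM _
  have hxV : x ∈ VcRing M A E :=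
    mem_VcRing_of_hasIntModel (Fermat.Agent.S18.H516.IsCoordinate.hasIntModel hx)
  refine H264.goodModel_separable_of_red ℓ (Rc M A E) (VcRing M A E) x w Rc_le_VcRing hxV
    (rhoE M A E) (rhoE_surjective M A E) (redV M A E) (redV_compat M A E)
    (redV_ker M A E coreA hgen) (redV_unit M A E) ?_ (redV_algebraic coreκ hx hxV)
  rw [order_redV M A E (Fermat.Agent.S18.H516.IsCoordinate.hasIntModel hx) hxV]
  exact H264.not_prime_dvd_neg_one ℓ hℓ

/-- **G-SEP hand-in**: the field `separable` of `Alg.GoodModel` for every subring `V` with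
underlying set `VcSet M A E` (`E/ℚ` finite), every `w` with `w_gen`, every admissible
coordinate `x`. -/
theorem sep_field_of_isCoordinate {ℓ : ℕ} (hℓ : ℓ.Prime) (hℓM : ¬ ℓ ∣ M)
    (hA : A.LiesOverPrime ℓ) [FiniteDimensional ℚ E]
    (V : Subring (Om M)) (hV : (V : Set (Om M)) = VcSet M A E) {w : Om M}
    (hgen : ∀ r ∈ Rc M A E, r⁻¹ ∉ Rc M A E → r * w⁻¹ ∈ Rc M A E)
    {x : Om M} {S : Finset (Om M)} (hx : IsCoordinate M ℓ x S) :
    ∀ f ∈ V, ∃ P : Polynomial (Om M),
      (∀ i, P.coeff i ∈ Alg.polyRing (Rc M A E) x) ∧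
      P.eval f * w⁻¹ ∈ V ∧ (Polynomial.derivative P).eval f ≠ 0 ∧
      ((Polynomial.derivative P).eval f)⁻¹ ∈ V := by
  have hVeq : V = VcRing M A E := SetLike.coe_injective (by rw [hV, coe_VcRing])
  subst hVeq
  exact sep_field_VcRing hℓ hℓM hA hgen hx

end Main

end Fermat.Agent.S18.H516
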